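/-
S48-N2-INTFG (helper8).  Last step of the integrality of the `a_p` (frozen S48 hypotheses):
if all `q`-coefficients of `f` lie in ONE finitely generated `ℤ`-submodule of `ℂ`, then every
`a_p` (`p ∤ N`) is an algebraic integer and there are only finitely many conjugate
eigensystems `(σ a_p)_p`.  Mathlib + Prelude only.
-/
import Mathlib
import Fermat.Prelude.Def_FLTPrelim_Modularity

set_option autoImplicit false

open CongruenceSubgroup ModularFormClass
open scoped MatrixGroups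

namespace Fermat.Agent.DS.Int

section abstract

variable {a : ℕ → ℂ} {χ : ℕ → ℂ}

/-- The `ℤ[χ]`-span of the coefficients. -/
noncomputable def coeffMod (a χ : ℕ → ℂ) : Submodule ℤ ℂ :=
  Subalgebra.toSubmodule (Algebra.adjoin ℤ (Set.range χ)) * Submodule.span ℤ (Set.range a)

theorem coeffMod_fg (hχfin : (Set.range χ).Finite) (hχint : ∀ n, IsIntegral ℤ (χ n))
    (hL : ∃ L : Submodule ℤ ℂ, L.FG ∧ ∀ n, a n ∈ L) : (coeffMod a χ).FG := by
  obtain ⟨L, hLfg, hLa⟩ := hL
  refine Submodule.FG.mul (fg_adjoin_of_finite hχfin ?_) (hLfg.of_le ?_)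
  · rintro _ ⟨n, rfl⟩
    exact hχint n
  · rw [Submodule.span_le]
    rintro _ ⟨n, rfl⟩
    exact hLa n

theorem one_mem_coeffMod (ha1 : a 1 = 1) : (1 : ℂ) ∈ coeffMod a χ := by
  have : (1 : ℂ) * a 1 ∈ coeffMod a χ :=
    Submodule.mul_mem_mul ((Subalgebra.mem_toSubmodule _).mpr (one_mem _))
      (Submodule.subset_span ⟨1, rfl⟩)
  rwa [ha1, mul_one] at this

theorem mul_mem_coeffMod_of_mem_adjoin {z x : ℂ} (hz : z ∈ Algebra.adjoin ℤ (Set.range χ))
    (hx : x ∈ coeffMod a χ) : z * x ∈ coeffMod a χ := by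
  unfold coeffMod at hx ⊢
  refine Submodule.mul_induction_on hx (fun m hm n hn => ?_) (fun x y hx hy => ?_)
  · rw [← mul_assoc]
    exact Submodule.mul_mem_mul ((Subalgebra.mem_toSubmodule _).mpr
      (mul_mem hz ((Subalgebra.mem_toSubmodule _).mp hm))) hn
  · rw [mul_add]; exact add_mem hx hy

theorem coeff_mem_coeffMod (n : ℕ) : a n ∈ coeffMod a χ := by
  have : (1 : ℂ) * a n ∈ coeffMod a χ :=
    Submodule.mul_mem_mul ((Subalgebra.mem_toSubmodule _).mpr (one_mem _))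
      (Submodule.subset_span ⟨n, rfl⟩)
  rwa [one_mul] at this

/-- `a_p` stabilises the coefficient module. -/
theorem mul_mem_coeffMod {p : ℕ}
    (hTp : ∀ n, a (p * n) + χ p * (if p ∣ n then a (n / p) else 0) = a p * a n)
    {x : ℂ} (hx : x ∈ coeffMod a χ) : a p * x ∈ coeffMod a χ := by
  have key : ∀ y ∈ Submodule.span ℤ (Set.range a), a p * y ∈ coeffMod a χ := by
    intro y hy
    induction hy using Submodule.span_induction with
    | mem y hy =>
      obtain ⟨n, rfl⟩ := hy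
      rw [← hTp n]
      refine add_mem (coeff_mem_coeffMod _) ?_
      refine mul_mem_coeffMod_of_mem_adjoin (Algebra.subset_adjoin ⟨p, rfl⟩) ?_
      split_ifs
      · exact coeff_mem_coeffMod _
      · exact zero_mem _
    | zero => simp
    | add x y _ _ hx hy => rw [mul_add]; exact add_mem hx hy
    | smul c x _ hx =>
      rw [mul_smul_comm]; exact Submodule.smul_mem _ c hx
  unfold coeffMod at hx
  refine Submodule.mul_induction_on hx (fun m hm n hn => ?_) (fun x y hx hy => ?_)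
  · rw [mul_left_comm]
    exact mul_mem_coeffMod_of_mem_adjoin ((Subalgebra.mem_toSubmodule _).mp hm) (key n hn)
  · rw [mul_add]
    exact add_mem hx hy

theorem isIntegral_of_hecke_fg (hχfin : (Set.range χ).Finite) (hχint : ∀ n, IsIntegral ℤ (χ n))
    (ha1 : a 1 = 1) (hL : ∃ L : Submodule ℤ ℂ, L.FG ∧ ∀ n, a n ∈ L) {p : ℕ}
    (hTp : ∀ n, a (p * n) + χ p * (if p ∣ n then a (n / p) else 0) = a p * a n) :
    IsIntegral ℤ (a p) := by
  refine isIntegral_of_smul_mem_submodule (coeffMod a χ) ?_ (coeffMod_fg hχfin hχint hL) (a p)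
    (fun n hn => mul_mem_coeffMod hTp hn)
  intro h
  have h1 := one_mem_coeffMod (χ := χ) ha1
  rw [h, Submodule.mem_bot] at h1
  exact one_ne_zero h1

end abstract

section abstract2

variable {a : ℕ → ℂ} {χ : ℕ → ℂ}

theorem adjoin_le_coeffMod (P : Set ℕ) (ha1 : a 1 = 1)
    (hT : ∀ p ∈ P, ∀ n, a (p * n) + χ p * (if p ∣ n then a (n / p) else 0) = a p * a n) :
    Subalgebra.toSubmodule (Algebra.adjoin ℤ (a '' P)) ≤ coeffMod a χ := by
  intro x hx
  have key : ∀ m ∈ coeffMod a χ, x * m ∈ coeffMod a χ := by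
    have hx' : x ∈ Algebra.adjoin ℤ (a '' P) := hx
    induction hx' using Algebra.adjoin_induction with
    | mem y hy =>
      obtain ⟨p, hp, rfl⟩ := hy
      intro m hm
      exact mul_mem_coeffMod (hT p hp) hm
    | algebraMap r =>
      intro m hm
      have : (algebraMap ℤ ℂ r) * m = r • m := by
        rw [Algebra.smul_def]
      rw [this]
      exact Submodule.smul_mem _ r hm
    | add y z _ _ hy hz =>
      intro m hm
      rw [add_mul]
      exact add_mem (hy (by assumption) m hm) (hz (by assumption) m hm)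
    | mul y z _ _ hy hz =>
      intro m hm
      rw [mul_assoc]
      exact hy (by assumption) _ (hz (by assumption) m hm)
  have := key 1 (one_mem_coeffMod ha1)
  rwa [mul_one] at this

open Classical in
theorem finite_eigensystems_abs (P : Set ℕ) (hχfin : (Set.range χ).Finite)
    (hχint : ∀ n, IsIntegral ℤ (χ n)) (ha1 : a 1 = 1)
    (hL : ∃ L : Submodule ℤ ℂ, L.FG ∧ ∀ n, a n ∈ L)
    (hT : ∀ p ∈ P, ∀ n, a (p * n) + χ p * (if p ∣ n then a (n / p) else 0) = a p * a n) :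
    {b : ℕ → ℂ | ∃ σ : ℂ →+* ℂ, (∀ p ∈ P, b p = σ (a p)) ∧ ∀ p, p ∉ P → b p = 0}.Finite := by
  set R := Algebra.adjoin ℤ (a '' P) with hR
  have hRfg : (Subalgebra.toSubmodule R).FG :=
    (coeffMod_fg hχfin hχint hL).of_le (adjoin_le_coeffMod P ha1 hT)
  obtain ⟨G, hG⟩ := hRfg
  have hGR : ∀ r : G, r.1 ∈ R := fun r => by
    have : r.1 ∈ Submodule.span ℤ (G : Set ℂ) := Submodule.subset_span r.2
    rw [hG] at this
    exact this
  have hGint : ∀ r : G, IsIntegral ℤ r.1 := fun r =>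
    IsIntegral.of_mem_of_fg R (hG ▸ ⟨G, rfl⟩) r.1 (hGR r)
  have hc : ∀ p : ℕ, ∃ c : G → ℤ, p ∈ P → ∑ r : G, c r • r.1 = a p := by
    intro p
    by_cases hp : p ∈ P
    · have h1 : a p ∈ Submodule.span ℤ (G : Set ℂ) := by
        rw [hG]
        exact Algebra.subset_adjoin ⟨p, hp, rfl⟩
      obtain ⟨c, hc⟩ := Submodule.mem_span_finset'.mp h1
      exact ⟨c, fun _ => hc⟩
    · exact ⟨0, fun h => absurd h hp⟩
  choose c hc using hc
  let Φ : (G → ℂ) → (ℕ → ℂ) := fun t p => if p ∈ P then ∑ r : G, (c p r : ℂ) * t r else 0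
  let Tset : Set (G → ℂ) := Set.pi Set.univ (fun r : G => (minpoly ℤ r.1).rootSet ℂ)
  have hTfin : Tset.Finite := Set.Finite.pi fun r => Polynomial.rootSet_finite _ _
  refine (hTfin.image Φ).subset ?_
  rintro b ⟨σ, hb, hb0⟩
  refine ⟨fun r => σ r.1, ?_, ?_⟩
  · intro r _
    rw [Polynomial.mem_rootSet]
    refine ⟨minpoly.ne_zero (hGint r), ?_⟩
    have := Polynomial.aeval_algHom_apply (σ.toIntAlgHom) r.1 (minpoly ℤ r.1)
    rw [minpoly.aeval, map_zero] at this
    exact this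
  · funext p
    by_cases hp : p ∈ P
    · simp only [Φ, if_pos hp]
      rw [hb p hp, ← hc p hp, map_sum]
      refine Finset.sum_congr rfl fun r _ => ?_
      rw [zsmul_eq_mul, map_mul, map_intCast]
    · simp only [Φ, if_neg hp]
      exact (hb0 p hp).symm

end abstract2

section S48shape

variable {N : ℕ} [NeZero N]

theorem isIntegral_dirichlet (ε : DirichletCharacter ℂ N) (d : ZMod N) : IsIntegral ℤ (ε d) := by
  by_cases hd : IsUnit d
  · obtain ⟨u, rfl⟩ := hd
    have h1 : (ε u) ^ (Fintype.card (ZMod N)ˣ) = 1 := by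
      rw [← map_pow, ← Units.val_pow_eq_pow_val, pow_card_eq_one, Units.val_one, map_one]
    exact IsIntegral.of_pow Fintype.card_pos (h1 ▸ isIntegral_one)
  · rw [MulChar.map_nonunit ε hd]
    exact isIntegral_zero

theorem finite_range_dirichlet (ε : DirichletCharacter ℂ N) :
    (Set.range fun n : ℕ => ε (n : ZMod N)).Finite :=
  (Set.finite_range fun d : ZMod N => ε d).subset (by rintro _ ⟨n, rfl⟩; exact ⟨_, rfl⟩)

/-- (a) **Integrality** of the Hecke eigenvalues in the frozen-S48 spelling, from a finitely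
generated `ℤ`-module containing all the coefficients. -/
theorem isIntegral_qCoeff_of_fg (ε : DirichletCharacter ℂ N) (f : CuspForm (Gamma1 N) 1)
    (hf₁ : qCoeff f 1 = 1)
    (hT : ∀ p : ℕ, p.Prime → ¬ p ∣ N → ∀ n : ℕ,
      qCoeff f (p * n) + ε (p : ZMod N) * (if p ∣ n then qCoeff f (n / p) else 0) =
        qCoeff f p * qCoeff f n)
    (hfg : ∃ L : Submodule ℤ ℂ, L.FG ∧ ∀ n, qCoeff f n ∈ L) :
    ∀ p : ℕ, p.Prime → ¬ p ∣ N → IsIntegral ℤ (qCoeff f p) := fun p hp hpN =>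
  isIntegral_of_hecke_fg (a := fun n => qCoeff f n) (χ := fun n : ℕ => ε (n : ZMod N))
    (finite_range_dirichlet ε) (fun n => isIntegral_dirichlet ε _) hf₁ hfg (hT p hp hpN)

/-- (b) **Finitely many conjugate eigensystems**. -/
theorem finite_eigensystems_of_fg (ε : DirichletCharacter ℂ N) (f : CuspForm (Gamma1 N) 1)
    (hf₁ : qCoeff f 1 = 1)
    (hT : ∀ p : ℕ, p.Prime → ¬ p ∣ N → ∀ n : ℕ,
      qCoeff f (p * n) + ε (p : ZMod N) * (if p ∣ n then qCoeff f (n / p) else 0) =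
        qCoeff f p * qCoeff f n)
    (hfg : ∃ L : Submodule ℤ ℂ, L.FG ∧ ∀ n, qCoeff f n ∈ L) :
    {a : ℕ → ℂ | ∃ σ : ℂ →+* ℂ, (∀ p : ℕ, p.Prime → ¬ p ∣ N → a p = σ (qCoeff f p)) ∧
      ∀ p : ℕ, ¬ (p.Prime ∧ ¬ p ∣ N) → a p = 0}.Finite := by
  have h := finite_eigensystems_abs (a := fun n => qCoeff f n)
    (χ := fun n : ℕ => ε (n : ZMod N)) {p : ℕ | p.Prime ∧ ¬ p ∣ N}
    (finite_range_dirichlet ε) (fun n => isIntegral_dirichlet ε _) hf₁ hfg
    (fun p hp n => hT p hp.1 hp.2 n)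
  refine h.subset ?_
  rintro a ⟨σ, h1, h2⟩
  exact ⟨σ, fun p hp => h1 p hp.1 hp.2, fun p hp => h2 p hp⟩

/-- The subring generated by the eigenvalues is a finitely generated `ℤ`-module. -/
theorem adjoin_qCoeff_fg (ε : DirichletCharacter ℂ N) (f : CuspForm (Gamma1 N) 1)
    (hf₁ : qCoeff f 1 = 1)
    (hT : ∀ p : ℕ, p.Prime → ¬ p ∣ N → ∀ n : ℕ,
      qCoeff f (p * n) + ε (p : ZMod N) * (if p ∣ n then qCoeff f (n / p) else 0) =
        qCoeff f p * qCoeff f n)
    (hfg : ∃ L : Submodule ℤ ℂ, L.FG ∧ ∀ n, qCoeff f n ∈ L) :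
    (Subalgebra.toSubmodule (Algebra.adjoin ℤ
      ((fun n => qCoeff f n) '' {p : ℕ | p.Prime ∧ ¬ p ∣ N}))).FG :=
  (coeffMod_fg (χ := fun n : ℕ => ε (n : ZMod N)) (finite_range_dirichlet ε)
    (fun n => isIntegral_dirichlet ε _) hfg).of_le
    (adjoin_le_coeffMod _ hf₁ (fun p hp n => hT p hp.1 hp.2 n))

end S48shape

end Fermat.Agent.DS.Int
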