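/-
S48-N2B-INT (helper8).  Separation for Eichler integrals on an ARBITRARY arithmetic subgroup:
port of `S22_helper7/Separation.lean` (stated there for `Γ₀(N)` only; the proof is generic).
-/
import Fermat.Agent.S22_helper7.SeparationFinal

set_option autoImplicit false

namespace Fermat.Agent.DS.Int

open UpperHalfPlane ModularForm Derivative ConjAct Matrix.SpecialLinearGroup
open scoped MatrixGroups ModularForm Manifold Pointwise
open Fermat.Agent.S22_helper7

variable {Γ : Subgroup (GL (Fin 2) ℝ)} [Γ.IsArithmetic]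

theorem isBoundedAtImInfty_slash_of_eichler_gen {m : ℕ} (f : CuspForm Γ ((1 : ℤ) + m))
    (E : ℍ → ℂ) (hE : MDiff E)
    (hD : D^[m] E = ⇑f) (hinv : ∀ γ ∈ Γ, E ∣[(1 : ℤ) - m] γ = E) (δ : SL(2, ℤ)) :
    IsBoundedAtImInfty (E ∣[(1 : ℤ) - m] δ) := by
  obtain ⟨M, hM, hper⟩ := Subgroup.IsArithmetic.exists_nat_mem_strictPeriods_conj Γ
  have hMpos : (0 : ℝ) < M := Nat.cast_pos.mpr hM
  set g : GL (Fin 2) ℝ := mapGL ℝ δ with hg
  have hperδ : (M : ℝ) ∈ (toConjAct g⁻¹ • Γ).strictPeriods := by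
    have := hper δ⁻¹
    rwa [map_inv] at this
  let f' := CuspForm.translate f g
  have hf'coe : (⇑f' : ℍ → ℂ) = ⇑f ∣[(1 : ℤ) + m] g := rfl
  have hf'per : Function.Periodic (⇑f' ∘ ofComplex) M :=
    SlashInvariantFormClass.periodic_comp_ofComplex f' hperδ
  have hcusp : IsCusp OnePoint.infty (toConjAct g⁻¹ • Γ) :=
    Subgroup.isCusp_of_mem_strictPeriods hMpos hperδ
  have hf'zero : IsZeroAtImInfty (⇑f' : ℍ → ℂ) :=
    OnePoint.isZeroAt_infty_iff.mp (CuspFormClass.zero_at_cusps f' hcusp)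
  let Es : SlashInvariantForm Γ ((1 : ℤ) - m) := { toFun := E, slash_action_eq' := hinv }
  let Es' := SlashInvariantForm.translate Es g
  have hEper : Function.Periodic ((E ∣[(1 : ℤ) - m] g) ∘ ofComplex) M :=
    SlashInvariantFormClass.periodic_comp_ofComplex Es' hperδ
  obtain ⟨E', hE'md, hE'per, hE'zero, hE'D⟩ :=
    pieceA m (φ := ⇑f') hMpos (CuspFormClass.holo f') hf'per hf'zero
  have hdet1 : g.val.det = 1 := by
    rw [← Matrix.GeneralLinearGroup.val_det_apply]; simp [hg]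
  have hdet : 0 < g.val.det := by rw [hdet1]; exact one_pos
  have hBol := pieceB m hE hdet
  have hdiff : D^[m] (E ∣[(1 : ℤ) - m] g - E') = 0 := by
    rw [iterD_sub m (hE.slash _ g) hE'md, hBol, hD, hE'D, hf'coe, hdet1]
    simp
  obtain ⟨P, -, hP⟩ := pieceC1 m ((hE.slash _ g).sub hE'md) hdiff
  have hPper : Function.Periodic ((fun z : ℍ => P.eval (z : ℂ)) ∘ ofComplex) M := by
    rw [← hP]
    intro w
    have h1 := hEper w
    have h2 := hE'per w
    simp only [Function.comp_apply, Pi.sub_apply, Complex.ofReal_natCast] at h1 h2 ⊢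
    rw [h1, h2]
  obtain ⟨c, hc⟩ := pieceC2 hMpos.ne' hPper
  have hEq : E ∣[(1 : ℤ) - m] g = E' + fun _ => c := by
    have : E ∣[(1 : ℤ) - m] g - E' = fun _ => c := by
      rw [hP, hc]; simp
    rw [← this]; abel
  rw [ModularForm.SL_slash]
  change IsBoundedAtImInfty (E ∣[(1 : ℤ) - m] g)
  rw [hEq]
  exact hE'zero.isBoundedAtImInfty.add (Filter.const_boundedAtFilter _ c)

theorem exists_modularForm_of_eichler_gen {m : ℕ} (f : CuspForm Γ ((1 : ℤ) + m)) (E : ℍ → ℂ)
    (hE : MDiff E) (hD : D^[m] E = ⇑f) (hinv : ∀ γ ∈ Γ, E ∣[(1 : ℤ) - m] γ = E) {k : ℤ}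
    (hk : k = (1 : ℤ) - m) : ∃ EM : ModularForm Γ k, (⇑EM : ℍ → ℂ) = E := by
  subst hk
  refine ⟨{ toFun := E
            slash_action_eq' := hinv
            holo' := hE
            bdd_at_cusps' := fun {c} hc => ?_ }, rfl⟩
  have hc' := (Subgroup.IsArithmetic.isCusp_iff_isCusp_SL2Z Γ).mp hc
  rw [OnePoint.isBoundedAt_iff_forall_SL2Z hc']
  intro δ _
  exact isBoundedAtImInfty_slash_of_eichler_gen f E hE hD hinv δ

/-- **Separation**, generic arithmetic group: if an Eichler integral `E` (`D^[m] E = f`,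
zero at `i∞`) of a cusp form `f` of weight `1 + m`, `m ≥ 1`, is invariant under the weight
`1 - m` action of `Γ`, then `f = 0`. -/
theorem separation_gen {m : ℕ} (hm : 1 ≤ m) (f : CuspForm Γ ((1 : ℤ) + m)) (E : ℍ → ℂ)
    (hE : MDiff E) (hzero : IsZeroAtImInfty E) (hD : D^[m] E = ⇑f)
    (hinv : ∀ γ ∈ Γ, E ∣[(1 : ℤ) - m] γ = E) : f = 0 := by
  have hE0 : E = 0 := by
    rcases Nat.lt_or_ge 1 m with h1 | h1
    · obtain ⟨EM, hEM⟩ :=
        exists_modularForm_of_eichler_gen f E hE hD hinv (k := (1 : ℤ) - m) rfl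
      have hneg : (1 : ℤ) - m < 0 := by omega
      rw [← hEM, ModularForm.isZero_of_neg_weight hneg EM]
      rfl
    · obtain ⟨EM, hEM⟩ :=
        exists_modularForm_of_eichler_gen f E hE hD hinv (k := 0) (by omega)
      obtain ⟨c, hc⟩ := ModularForm.eq_const_of_weight_zero EM
      rw [hEM] at hc
      have hc0 : c = 0 := by
        have h1 : Filter.Tendsto E atImInfty (nhds 0) := hzero
        rw [hc] at h1
        exact (tendsto_nhds_unique h1 tendsto_const_nhds).symm ▸ rfl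
      rw [hc, hc0]
      rfl
  have hf : (⇑f : ℍ → ℂ) = 0 := by rw [← hD, hE0, iterD_zero]
  exact DFunLike.coe_injective hf

end Fermat.Agent.DS.Int
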