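/-
S48-N2B-INT (helper8).  Function-level operator layer on `Γ₁(N)`-invariant functions:
diamond twist by `Γ₀(N)`, `U_q` (`q ∣ N`), `T_p` (`p ∤ N`, with diamond), with the MATRIX form
of the coset computations (needed for the period-polynomial Hecke formulas).
-/
import Fermat.Agent.S22_helper97.Hecke
import Fermat.Agent.DS.Int.SepGen

set_option autoImplicit false

open UpperHalfPlane ModularForm Derivative Polynomial CongruenceSubgroup
open scoped MatrixGroups ModularForm Manifold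
open Matrix.SpecialLinearGroup (mapGL)
open P2MW.S_ModularForm_heckeT_slash_eq_self_of_mem_Gamma0.ModularForm.HeckeSlashInvariance

namespace Fermat.Agent.DS.Int

variable {N : ℕ}

/-- The lower right entry of `g` modulo `N`. -/
def dN (N : ℕ) (g : SL(2, ℤ)) : ZMod N := ((g 1 1 : ℤ) : ZMod N)

theorem dN_one : dN N 1 = 1 := by simp [dN]

theorem dN_mul {A B : SL(2, ℤ)} (hA : A ∈ Gamma0 N) : dN N (A * B) = dN N A * dN N B := by
  unfold dN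
  rw [Matrix.SpecialLinearGroup.coe_mul, Matrix.mul_apply, Fin.sum_univ_two]
  push_cast
  rw [Gamma0_mem.mp hA]
  ring

theorem dN_mul_inv {A : SL(2, ℤ)} (hA : A ∈ Gamma0 N) : dN N A * dN N A⁻¹ = 1 := by
  rw [← dN_mul hA, mul_inv_cancel, dN_one]

theorem mem_Gamma1_iff_dN {A : SL(2, ℤ)} (hA : A ∈ Gamma0 N) : A ∈ Gamma1 N ↔ dN N A = 1 := by
  constructor
  · intro h
    exact ((Gamma1_mem N A).mp h).2.1
  · intro h
    have := (Gamma1_to_Gamma0_mem (⟨A, hA⟩ : Gamma0 N)).mp (by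
      rw [Gamma1_mem']
      exact h)
    exact (Gamma1_mem N A).mpr this

theorem mul_inv_mem_Gamma1 {A B : SL(2, ℤ)} (hA : A ∈ Gamma0 N) (hB : B ∈ Gamma0 N)
    (h : dN N A = dN N B) : A * B⁻¹ ∈ Gamma1 N := by
  rw [mem_Gamma1_iff_dN (mul_mem hA (inv_mem hB)), dN_mul hA, h, dN_mul_inv hB]

/-- `f` is invariant under the weight `k` action of `Γ₁(N)`. -/
def Inv1 (N : ℕ) (k : ℤ) (f : ℍ → ℂ) : Prop :=
  ∀ γ : SL(2, ℤ), γ ∈ Gamma1 N → f ∣[k] γ = f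

theorem Inv1.slash_eq {k : ℤ} {f : ℍ → ℂ} (hf : Inv1 N k f) {A B : SL(2, ℤ)}
    (hA : A ∈ Gamma0 N) (hB : B ∈ Gamma0 N) (h : dN N A = dN N B) : f ∣[k] A = f ∣[k] B := by
  have h1 : A = (A * B⁻¹) * B := by group
  rw [h1, SlashAction.slash_mul, hf _ (mul_inv_mem_Gamma1 hA hB h)]

theorem Inv1.slash {k : ℤ} {f : ℍ → ℂ} (hf : Inv1 N k f) {A : SL(2, ℤ)} (hA : A ∈ Gamma0 N) :
    Inv1 N k (f ∣[k] A) := by
  intro γ hγ
  have hγ0 : γ ∈ Gamma0 N := Gamma1_in_Gamma0 N hγ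
  rw [← SlashAction.slash_mul]
  refine hf.slash_eq (mul_mem hA hγ0) hA ?_
  rw [dN_mul hA, (mem_Gamma1_iff_dN hγ0).mp hγ, mul_one]

theorem T_mem_Gamma1 (N : ℕ) : ModularGroup.T ∈ Gamma1 N := by
  rw [Gamma1_mem]
  simp [ModularGroup.T]

theorem one_mem_strictPeriods_Gamma1 (N : ℕ) :
    (1 : ℝ) ∈ (Subgroup.map (mapGL ℝ) (Gamma1 N)).strictPeriods := by
  rw [Subgroup.strictPeriods_eq_zmultiples_one_of_T_mem (T_mem_Gamma1 N)]
  exact AddSubgroup.mem_zmultiples (1 : ℝ)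

/-- Comparing lower right entries in an identity `β * γ = γ' * β'` with `β` upper triangular. -/
theorem lowerRight_of_mul_eq {β β' : GL (Fin 2) ℝ} {g g' : SL(2, ℤ)} {d u d' : ℤ}
    (h10 : β 1 0 = 0) (h11 : β 1 1 = d) (h01' : β' 0 1 = u) (h11' : β' 1 1 = d')
    (h : β * mapGL ℝ g = mapGL ℝ g' * β') :
    d * g 1 1 = g' 1 0 * u + g' 1 1 * d' := by
  have h1 := congrArg (fun M : GL (Fin 2) ℝ => (M : Matrix (Fin 2) (Fin 2) ℝ) 1 1) h
  simp only [Matrix.GeneralLinearGroup.coe_mul, Matrix.mul_apply, Fin.sum_univ_two] at h1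
  have e1 : ((mapGL ℝ g : GL (Fin 2) ℝ) : Matrix (Fin 2) (Fin 2) ℝ) 0 1 = ((g 0 1 : ℤ) : ℝ) := by simp
  have e2 : ((mapGL ℝ g : GL (Fin 2) ℝ) : Matrix (Fin 2) (Fin 2) ℝ) 1 1 = ((g 1 1 : ℤ) : ℝ) := by simp
  have e3 : ((mapGL ℝ g' : GL (Fin 2) ℝ) : Matrix (Fin 2) (Fin 2) ℝ) 1 0 = ((g' 1 0 : ℤ) : ℝ) := by simp
  have e4 : ((mapGL ℝ g' : GL (Fin 2) ℝ) : Matrix (Fin 2) (Fin 2) ℝ) 1 1 = ((g' 1 1 : ℤ) : ℝ) := by simp
  rw [e1, e2, e3, e4] at h1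
  change β 1 0 * _ + β 1 1 * _ = _ * β' 0 1 + _ * β' 1 1 at h1
  rw [h10, h11, h01', h11'] at h1
  have : ((d * g 1 1 : ℤ) : ℝ) = ((g' 1 0 * u + g' 1 1 * d' : ℤ) : ℝ) := by
    push_cast; linarith
  exact_mod_cast this


variable {p : ℕ}

/-- Lower right entry of `heckeRep p x`. -/
def dB (p : ℕ) (x : OnePoint (ZMod p)) : ℤ := x.elim 1 (fun _ => (p : ℤ))

/-- Upper right entry of `heckeRep p x`. -/
def uB (p : ℕ) (x : OnePoint (ZMod p)) : ℤ := x.elim 0 (fun j => (j.val : ℤ))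

theorem heckeRep_10 (hp : p ≠ 0) (x : OnePoint (ZMod p)) : heckeRep p x 1 0 = 0 := by
  induction x using OnePoint.rec with
  | infty => simp [val_heckeDiagMatrix hp]
  | coe j => simp [val_heckeMatrix hp]

theorem heckeRep_11 (hp : p ≠ 0) (x : OnePoint (ZMod p)) : heckeRep p x 1 1 = dB p x := by
  induction x using OnePoint.rec with
  | infty => simp [val_heckeDiagMatrix hp, dB]
  | coe j => simp [val_heckeMatrix hp, dB]

theorem heckeRep_01 (hp : p ≠ 0) (x : OnePoint (ZMod p)) : heckeRep p x 0 1 = uB p x := by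
  induction x using OnePoint.rec with
  | infty => simp [val_heckeDiagMatrix hp, uB]
  | coe j => simp [val_heckeMatrix hp, uB]

theorem dN_rel_of_mul_eq (hp : p ≠ 0) {g g' : SL(2, ℤ)} (hg' : g' ∈ Gamma0 N)
    {x y : OnePoint (ZMod p)} (h : heckeRep p x * mapGL ℝ g = mapGL ℝ g' * heckeRep p y) :
    ((dB p x : ℤ) : ZMod N) * dN N g = dN N g' * ((dB p y : ℤ) : ZMod N) := by
  have h1 := lowerRight_of_mul_eq (heckeRep_10 hp x) (heckeRep_11 hp x) (heckeRep_01 hp y)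
    (heckeRep_11 hp y) h
  have h2 := congrArg (Int.cast : ℤ → ZMod N) h1
  push_cast at h2
  rw [Gamma0_mem.mp hg', zero_mul, zero_add] at h2
  exact h2

theorem heckeRep_mul1 [Fact p.Prime] (hpN : ¬ p ∣ N) {g : SL(2, ℤ)} (hg : g ∈ Gamma0 N)
    (x : OnePoint (ZMod p)) :
    ∃ g' : SL(2, ℤ), g' ∈ Gamma0 N ∧
      heckeRep p x * mapGL ℝ g = mapGL ℝ g' * heckeRep p (redMatrix p g • x) ∧
      ((dB p x : ℤ) : ZMod N) * dN N g =
        dN N g' * ((dB p (redMatrix p g • x) : ℤ) : ZMod N) := by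
  have hγN : (N : ℤ) ∣ g 1 0 :=
    (ZMod.intCast_zmod_eq_zero_iff_dvd _ _).mp (Gamma0_mem.mp hg)
  obtain ⟨g', hg'N, hmul⟩ := heckeRep_mul hpN g hγN x
  have hg' : g' ∈ Gamma0 N :=
    Gamma0_mem.mpr ((ZMod.intCast_zmod_eq_zero_iff_dvd _ _).mpr hg'N)
  exact ⟨g', hg', hmul, dN_rel_of_mul_eq (Fact.out : p.Prime).ne_zero hg' hmul⟩

/-- The diamond twist attached to the coset representative `heckeRep p x`. -/
def dlt (p : ℕ) (gp : SL(2, ℤ)) (x : OnePoint (ZMod p)) : SL(2, ℤ) := x.elim gp (fun _ => 1)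

theorem dlt_mem {gp : SL(2, ℤ)} (hgp : gp ∈ Gamma0 N) (x : OnePoint (ZMod p)) :
    dlt p gp x ∈ Gamma0 N := by
  induction x using OnePoint.rec with
  | infty => exact hgp
  | coe j => exact one_mem _

theorem dN_dlt_mul_dB {gp : SL(2, ℤ)} (hgp : dN N gp = (p : ZMod N)) (x : OnePoint (ZMod p)) :
    dN N (dlt p gp x) * ((dB p x : ℤ) : ZMod N) = (p : ZMod N) := by
  induction x using OnePoint.rec with
  | infty => simp [dlt, dB, hgp]
  | coe j => simp [dlt, dB, dN_one]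

theorem isUnit_dB (hp : p.Prime) (hpN : ¬ p ∣ N) (x : OnePoint (ZMod p)) :
    IsUnit ((dB p x : ℤ) : ZMod N) := by
  have hpu : IsUnit ((p : ℕ) : ZMod N) :=
    (ZMod.isUnit_iff_coprime p N).mpr ((Nat.Prime.coprime_iff_not_dvd hp).mpr hpN)
  induction x using OnePoint.rec with
  | infty => simp [dB]
  | coe j => simpa [dB] using hpu

theorem dN_dlt_eq (hp : p.Prime) (hpN : ¬ p ∣ N) {gp g g' : SL(2, ℤ)}
    (hgp0 : gp ∈ Gamma0 N) (hgp : dN N gp = (p : ZMod N))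
    (hg : g ∈ Gamma0 N) {x y : OnePoint (ZMod p)}
    (h : ((dB p x : ℤ) : ZMod N) * dN N g = dN N g' * ((dB p y : ℤ) : ZMod N)) :
    dN N (dlt p gp x * g') = dN N (g * dlt p gp y) := by
  rw [dN_mul (dlt_mem hgp0 x), dN_mul hg]
  have hx := dN_dlt_mul_dB hgp x
  have hy := dN_dlt_mul_dB hgp y
  apply (isUnit_dB hp hpN x).mul_left_cancel
  apply (isUnit_dB hp hpN y).mul_left_cancel
  linear_combination (dN N g' * (dB p y : ZMod N)) * hx - (dN N g * (dB p x : ZMod N)) * hy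
    - (p : ZMod N) * h


/-- `T_p` with the diamond twist `gp` (`gp ∈ Γ₀(N)`, lower right entry `≡ p`). -/
noncomputable def heckeT1 (k : ℤ) (p : ℕ) (gp : SL(2, ℤ)) (f : ℍ → ℂ) : ℍ → ℂ :=
  heckeU k p f + (f ∣[k] gp) ∣[k] heckeDiagMatrix p

theorem heckeT1_eq_sum [NeZero p] (k : ℤ) (gp : SL(2, ℤ)) (f : ℍ → ℂ) :
    heckeT1 k p gp f = ∑ x : OnePoint (ZMod p), (f ∣[k] dlt p gp x) ∣[k] heckeRep p x := by
  rw [heckeT1, heckeU_eq_sum_zmod, add_comm]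
  have := Fintype.sum_option (fun x : OnePoint (ZMod p) ↦ (f ∣[k] dlt p gp x) ∣[k] heckeRep p x)
  refine Eq.trans ?_ this.symm
  congr 1
  refine Finset.sum_congr rfl fun j _ => ?_
  change _ = (f ∣[k] (1 : SL(2, ℤ))) ∣[k] heckeMatrix p j.val
  rw [SlashAction.slash_one]

theorem SL_slash_mapGL (k : ℤ) (F : ℍ → ℂ) (γ : SL(2, ℤ)) :
    F ∣[k] γ = F ∣[k] (mapGL ℝ γ) := rfl

/-- One term of the coset computation. -/
theorem slash_term_eq {k : ℤ} {f : ℍ → ℂ} (hf : Inv1 N k f) {A B g g' : SL(2, ℤ)}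
    {β β' : GL (Fin 2) ℝ} (hA : A ∈ Gamma0 N) (hB : B ∈ Gamma0 N) (hg : g ∈ Gamma0 N)
    (hg' : g' ∈ Gamma0 N) (hmul : β * mapGL ℝ g = mapGL ℝ g' * β')
    (hd : dN N (A * g') = dN N (g * B)) :
    ((f ∣[k] A) ∣[k] β) ∣[k] g = ((f ∣[k] g) ∣[k] B) ∣[k] β' := by
  rw [SL_slash_mapGL k ((f ∣[k] A) ∣[k] β), ← SlashAction.slash_mul, hmul,
    SlashAction.slash_mul, ← SL_slash_mapGL, ← SlashAction.slash_mul,
    ← SlashAction.slash_mul]
  congr 1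
  exact hf.slash_eq (mul_mem hA hg') (mul_mem hg hB) hd

theorem heckeT1_slash [Fact p.Prime] (hpN : ¬ p ∣ N) {gp : SL(2, ℤ)} (hgp0 : gp ∈ Gamma0 N)
    (hgp : dN N gp = (p : ZMod N)) {k : ℤ} {f : ℍ → ℂ} (hf : Inv1 N k f) {g : SL(2, ℤ)}
    (hg : g ∈ Gamma0 N) :
    (heckeT1 k p gp f) ∣[k] g = heckeT1 k p gp (f ∣[k] g) := by
  have hp : p.Prime := Fact.out
  rw [heckeT1_eq_sum, heckeT1_eq_sum, SL_slash_mapGL, SlashAction.sum_slash]
  rw [← Equiv.sum_comp (MulAction.toPerm (redMatrix p g))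
    (fun x => ((f ∣[k] g) ∣[k] dlt p gp x) ∣[k] heckeRep p x)]
  refine Finset.sum_congr rfl fun x _ => ?_
  obtain ⟨g', hg', hmul, hd⟩ := heckeRep_mul1 hpN hg x
  rw [← SL_slash_mapGL]
  exact slash_term_eq hf (dlt_mem hgp0 x) (dlt_mem hgp0 _) hg hg' hmul
    (dN_dlt_eq hp hpN hgp0 hgp hg hd)


variable {q : ℕ}

theorem dvd_of_mem_Gamma0 (hqN : q ∣ N) {g : SL(2, ℤ)} (hg : g ∈ Gamma0 N) :
    ((g 1 0 : ℤ) : ZMod q) = 0 := by
  have hcN : (N : ℤ) ∣ g 1 0 :=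
    (ZMod.intCast_zmod_eq_zero_iff_dvd _ _).mp (Gamma0_mem.mp hg)
  exact (ZMod.intCast_zmod_eq_zero_iff_dvd _ _).mpr ((Int.natCast_dvd_natCast.mpr hqN).trans hcN)

theorem heckeMatrix_mul1 [NeZero q] (hqN : q ∣ N) {g : SL(2, ℤ)} (hg : g ∈ Gamma0 N)
    (x : ZMod q) :
    ∃ g' : SL(2, ℤ), g' ∈ Gamma0 N ∧
      heckeMatrix q x.val * mapGL ℝ g =
        mapGL ℝ g' * heckeMatrix q (affinePerm g (dvd_of_mem_Gamma0 hqN hg) x).val ∧
      dN N g' = dN N g := by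
  have hq0 : q ≠ 0 := NeZero.ne q
  have hc0 := dvd_of_mem_Gamma0 hqN hg
  have hc : (q : ℤ) ∣ g 1 0 := (ZMod.intCast_zmod_eq_zero_iff_dvd _ _).mp hc0
  obtain ⟨g', hg'c, hmul⟩ := heckeMatrix_mul_of_dvd g hc x
  have hg' : g' ∈ Gamma0 N := by
    rw [Gamma0_mem, hg'c]
    push_cast
    rw [Gamma0_mem.mp hg, mul_zero]
  refine ⟨g', hg', hmul, ?_⟩
  have h1 := lowerRight_of_mul_eq (d := q) (u := ((affinePerm g hc0 x).val : ℤ)) (d' := q)
    (by simp [val_heckeMatrix hq0]) (by simp [val_heckeMatrix hq0])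
    (by simp [val_heckeMatrix hq0]) (by simp [val_heckeMatrix hq0]) hmul
  rw [hg'c] at h1
  have hq' : (q : ℤ) ≠ 0 := by exact_mod_cast hq0
  have h2 : g' 1 1 = g 1 1 - g 1 0 * ((affinePerm g hc0 x).val : ℤ) := by
    apply mul_left_cancel₀ hq'
    linear_combination -h1
  unfold dN
  rw [h2]
  push_cast
  rw [Gamma0_mem.mp hg]
  ring

theorem heckeU_slash1 (hqN : q ∣ N) (hq0 : q ≠ 0) {k : ℤ} {f : ℍ → ℂ} (hf : Inv1 N k f)
    {g : SL(2, ℤ)} (hg : g ∈ Gamma0 N) :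
    (heckeU k q f) ∣[k] g = heckeU k q (f ∣[k] g) := by
  have : NeZero q := ⟨hq0⟩
  rw [heckeU_eq_sum_zmod, heckeU_eq_sum_zmod, SL_slash_mapGL, SlashAction.sum_slash]
  rw [← Equiv.sum_comp (affinePerm g (dvd_of_mem_Gamma0 hqN hg))
    (fun x => (f ∣[k] g) ∣[k] heckeMatrix q x.val)]
  refine Finset.sum_congr rfl fun x _ => ?_
  obtain ⟨g', hg', hmul, hd⟩ := heckeMatrix_mul1 hqN hg x
  rw [← SL_slash_mapGL]
  have := slash_term_eq (A := 1) (B := 1) hf (one_mem _) (one_mem _) hg hg' hmul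
    (by rw [one_mul, mul_one, hd])
  simpa [SlashAction.slash_one] using this

end Fermat.Agent.DS.Int
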