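/-
S48-N2B-INT (helper8).  Bundled operators on `CuspForm (Γ₁(N)) k`: the diamond twist `dia`,
`U_q` (`q ∣ N`) and `T_p` (`p ∤ N`), with their `q`-expansion formulas.
-/
import Fermat.Agent.DS.Int.Ops1
import Fermat.Prelude.Thm_UpperHalfPlane_qCoeff_heckeT
import Fermat.Prelude.Thm_UpperHalfPlane_qCoeff_heckeU
import Fermat.Prelude.Thm_ModularForm_periodic_heckeU_comp_ofComplex
import Fermat.Prelude.Thm_ModularForm_periodic_heckeT_comp_ofComplex
import Fermat.Prelude.Thm_ModularForm_isBoundedAtImInfty_heckeU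
import Fermat.Prelude.Thm_ModularForm_isBoundedAtImInfty_heckeT

set_option autoImplicit false

open UpperHalfPlane ModularForm Derivative Polynomial CongruenceSubgroup ModularFormClass
open scoped MatrixGroups ModularForm Manifold Pointwise
open Matrix.SpecialLinearGroup (mapGL)
open P2MW.S_ModularForm_heckeT_slash_eq_self_of_mem_Gamma0.ModularForm.HeckeSlashInvariance

namespace Fermat.Agent.DS.Int

variable {N : ℕ} [NeZero N] {k : ℤ}

theorem inv1_cuspForm (f : CuspForm (Gamma1 N) k) : Inv1 N k f := fun γ hγ =>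
  SlashInvariantForm.slash_action_eqn f _ (Subgroup.mem_map_of_mem _ hγ)

theorem slash_eq_of_mem_G1 {F : ℍ → ℂ} (hF : Inv1 N k F) (γ : GL (Fin 2) ℝ)
    (hγ : γ ∈ ((Gamma1 N : Subgroup SL(2, ℤ)) : Subgroup (GL (Fin 2) ℝ))) : F ∣[k] γ = F := by
  obtain ⟨γ0, hγ0, rfl⟩ := hγ
  exact hF γ0 hγ0

theorem isCusp_smul_SL (g : SL(2, ℤ)) {c : OnePoint ℝ}
    (hc : IsCusp c ((Gamma1 N : Subgroup SL(2, ℤ)) : Subgroup (GL (Fin 2) ℝ))) :
    IsCusp (mapGL ℝ g • c) ((Gamma1 N : Subgroup SL(2, ℤ)) : Subgroup (GL (Fin 2) ℝ)) := by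
  rw [Subgroup.IsArithmetic.isCusp_iff_isCusp_SL2Z] at hc ⊢
  have h1 := hc.smul (mapGL ℝ g)
  have h2 : ConjAct.toConjAct (mapGL ℝ g) • (𝒮ℒ : Subgroup (GL (Fin 2) ℝ)) = 𝒮ℒ :=
    Subgroup.conjAct_pointwise_smul_eq_self (Subgroup.le_normalizer ⟨g, rfl⟩)
  rwa [h2] at h1

/-- The diamond twist by `g ∈ Γ₀(N)`: `f ↦ f ∣[k] g`. -/
noncomputable def diaFun (k : ℤ) (g : SL(2, ℤ)) (hg : g ∈ Gamma0 N)
    (f : CuspForm (Gamma1 N) k) : CuspForm (Gamma1 N) k where
  toFun := ⇑f ∣[k] g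
  slash_action_eq' γ hγ := slash_eq_of_mem_G1 ((inv1_cuspForm f).slash hg) γ hγ
  holo' := (CuspFormClass.holo f).slash k (mapGL ℝ g)
  zero_at_cusps' {c} hc := by
    change OnePoint.IsZeroAt c (⇑f ∣[k] (mapGL ℝ g)) k
    rw [← OnePoint.IsZeroAt.smul_iff]
    exact CuspFormClass.zero_at_cusps f (isCusp_smul_SL g hc)

@[simp] theorem coe_diaFun (g : SL(2, ℤ)) (hg : g ∈ Gamma0 N) (f : CuspForm (Gamma1 N) k) :
    (⇑(diaFun k g hg f) : ℍ → ℂ) = ⇑f ∣[k] g := rfl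

/-- The diamond twist as a linear map, indexed by the subtype `Γ₀(N)`. -/
noncomputable def dia (k : ℤ) (g : Gamma0 N) :
    CuspForm (Gamma1 N) k →ₗ[ℂ] CuspForm (Gamma1 N) k where
  toFun := diaFun k g.1 g.2
  map_add' f f' := DFunLike.coe_injective <| by
    simp only [coe_diaFun, FunLike.coe_add, SlashAction.add_slash]
  map_smul' c f := DFunLike.coe_injective <| by
    simp only [coe_diaFun, FunLike.coe_smul, RingHom.id_apply]
    exact ModularForm.SL_smul_slash k g.1 f c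

@[simp] theorem coe_dia (g : Gamma0 N) (f : CuspForm (Gamma1 N) k) :
    (⇑(dia k g f) : ℍ → ℂ) = ⇑f ∣[k] g.1 := rfl

theorem dia_mul (g h : Gamma0 N) (f : CuspForm (Gamma1 N) k) :
    dia k (g * h) f = dia k h (dia k g f) :=
  DFunLike.coe_injective <| by
    simp only [coe_dia, Subgroup.coe_mul, SlashAction.slash_mul]

theorem dia_one (f : CuspForm (Gamma1 N) k) : dia k 1 f = f :=
  DFunLike.coe_injective <| by
    simp only [coe_dia, Subgroup.coe_one, SlashAction.slash_one]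

theorem dia_eq_of_dN_eq {g h : Gamma0 N} (hd : dN N g.1 = dN N h.1) :
    dia (N := N) k g = dia k h := by
  ext1 f
  exact DFunLike.coe_injective <| (inv1_cuspForm f).slash_eq g.2 h.2 hd

/-- `U_q` for `q ∣ N` on `Γ₁(N)`. -/
noncomputable def U1Fun (k : ℤ) {q : ℕ} (hqN : q ∣ N) (f : CuspForm (Gamma1 N) k) :
    CuspForm (Gamma1 N) k where
  toFun := heckeU k q ⇑f
  slash_action_eq' γ hγ := by
    refine slash_eq_of_mem_G1 (fun g hg => ?_) γ hγ
    have hq0 : q ≠ 0 := fun h => NeZero.ne N (by rw [h] at hqN; exact zero_dvd_iff.mp hqN)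
    rw [heckeU_slash1 hqN hq0 (inv1_cuspForm f) (Gamma1_in_Gamma0 N hg), inv1_cuspForm f g hg]
  holo' := mdifferentiable_heckeU (CuspFormClass.holo f) k q
  zero_at_cusps' hc := CuspFormClass.isZeroAt_heckeU f q hc

/-- `U_q` as a linear map. -/
noncomputable def U1 (k : ℤ) {q : ℕ} (hqN : q ∣ N) :
    CuspForm (Gamma1 N) k →ₗ[ℂ] CuspForm (Gamma1 N) k where
  toFun := U1Fun k hqN
  map_add' f g := DFunLike.coe_injective <|
    show heckeU k q ⇑(f + g) = heckeU k q ⇑f + heckeU k q ⇑g by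
      rw [FunLike.coe_add, heckeU_add]
  map_smul' c f := DFunLike.coe_injective <|
    show heckeU k q ⇑(c • f) = c • heckeU k q ⇑f by rw [FunLike.coe_smul, heckeU_smul]

@[simp] theorem coe_U1 {q : ℕ} (hqN : q ∣ N) (f : CuspForm (Gamma1 N) k) :
    (⇑(U1 k hqN f) : ℍ → ℂ) = heckeU k q ⇑f := rfl

theorem U1_dia {q : ℕ} (hqN : q ∣ N) (g : Gamma0 N) (f : CuspForm (Gamma1 N) k) :
    U1 k hqN (dia k g f) = dia k g (U1 k hqN f) :=
  DFunLike.coe_injective <| by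
    have hq0 : q ≠ 0 := fun h => NeZero.ne N (by rw [h] at hqN; exact zero_dvd_iff.mp hqN)
    simp only [coe_U1, coe_dia]
    exact (heckeU_slash1 hqN hq0 (inv1_cuspForm f) g.2).symm

theorem isZeroAt_slash_diag (f : CuspForm (Gamma1 N) k) (p : ℕ) {c : OnePoint ℝ}
    (hc : IsCusp c ((Gamma1 N : Subgroup SL(2, ℤ)) : Subgroup (GL (Fin 2) ℝ))) :
    OnePoint.IsZeroAt c (⇑f ∣[k] heckeDiagMatrix p) k := by
  intro g hg
  have h1 := CuspFormClass.isZeroAt_heckeT f p hc g hg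
  have h2 := CuspFormClass.isZeroAt_heckeU f p hc g hg
  have : (⇑f ∣[k] heckeDiagMatrix p) ∣[k] g =
      (heckeT k p ⇑f) ∣[k] g + -((heckeU k p ⇑f) ∣[k] g) := by
    rw [heckeT_eq_heckeU_add, SlashAction.add_slash]; abel
  rw [this]
  exact h1.add h2.neg

/-- `T_p` (`p ∤ N`) on `Γ₁(N)` with the diamond twist `gp`. -/
noncomputable def T1Fun (k : ℤ) {p : ℕ} (hp : p.Prime) (hpN : ¬ p ∣ N) (gp : Gamma0 N)
    (hgp : dN N gp.1 = (p : ZMod N)) (f : CuspForm (Gamma1 N) k) :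
    CuspForm (Gamma1 N) k where
  toFun := heckeT1 k p gp.1 ⇑f
  slash_action_eq' γ hγ := by
    refine slash_eq_of_mem_G1 (fun g hg => ?_) γ hγ
    have : Fact p.Prime := ⟨hp⟩
    rw [heckeT1_slash hpN gp.2 hgp (inv1_cuspForm f) (Gamma1_in_Gamma0 N hg),
      inv1_cuspForm f g hg]
  holo' := (mdifferentiable_heckeU (CuspFormClass.holo f) k p).add
    (((CuspFormClass.holo f).slash k (mapGL ℝ gp.1)).slash k _)
  zero_at_cusps' hc :=
    (CuspFormClass.isZeroAt_heckeU f p hc).add (isZeroAt_slash_diag (dia k gp f) p hc)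

/-- `T_p` as a linear map. -/
noncomputable def T1 (k : ℤ) {p : ℕ} (hp : p.Prime) (hpN : ¬ p ∣ N) (gp : Gamma0 N)
    (hgp : dN N gp.1 = (p : ZMod N)) :
    CuspForm (Gamma1 N) k →ₗ[ℂ] CuspForm (Gamma1 N) k where
  toFun := T1Fun k hp hpN gp hgp
  map_add' f g := DFunLike.coe_injective <|
    show heckeT1 k p gp.1 ⇑(f + g) = heckeT1 k p gp.1 ⇑f + heckeT1 k p gp.1 ⇑g by
      simp only [heckeT1, FunLike.coe_add, heckeU_add, SlashAction.add_slash]
      abel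
  map_smul' c f := DFunLike.coe_injective <|
    show heckeT1 k p gp.1 ⇑(c • f) = c • heckeT1 k p gp.1 ⇑f by
      simp only [heckeT1, FunLike.coe_smul, heckeU_smul, smul_add]
      congr 1
      rw [ModularForm.SL_smul_slash, ModularForm.smul_slash, σ_heckeDiagMatrix]
      rfl

@[simp] theorem coe_T1 {p : ℕ} (hp : p.Prime) (hpN : ¬ p ∣ N) (gp : Gamma0 N)
    (hgp : dN N gp.1 = (p : ZMod N)) (f : CuspForm (Gamma1 N) k) :
    (⇑(T1 k hp hpN gp hgp f) : ℍ → ℂ) = heckeT1 k p gp.1 ⇑f := rfl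

theorem T1_dia {p : ℕ} (hp : p.Prime) (hpN : ¬ p ∣ N) (gp : Gamma0 N)
    (hgp : dN N gp.1 = (p : ZMod N)) (g : Gamma0 N) (f : CuspForm (Gamma1 N) k) :
    T1 k hp hpN gp hgp (dia k g f) = dia k g (T1 k hp hpN gp hgp f) :=
  DFunLike.coe_injective <| by
    have : Fact p.Prime := ⟨hp⟩
    simp only [coe_T1, coe_dia]
    exact (heckeT1_slash hpN gp.2 hgp (inv1_cuspForm f) g.2).symm

theorem cf1_periodic (f : CuspForm (Gamma1 N) k) :
    Function.Periodic ((f : ℍ → ℂ) ∘ ofComplex) (1 : ℝ) :=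
  SlashInvariantFormClass.periodic_comp_ofComplex f (one_mem_strictPeriods_Gamma1 N)

theorem cf1_bdd (f : CuspForm (Gamma1 N) k) : IsBoundedAtImInfty (f : ℍ → ℂ) :=
  (CuspFormClass.zero_at_infty f).isBoundedAtImInfty

theorem qCoeff_U1 {q : ℕ} (hqN : q ∣ N) (f : CuspForm (Gamma1 N) k) (n : ℕ) :
    qCoeff (U1 k hqN f) n = qCoeff f (n * q) := by
  have hq0 : q ≠ 0 := fun h => NeZero.ne N (by rw [h] at hqN; exact zero_dvd_iff.mp hqN)
  rw [coe_U1, UpperHalfPlane.qCoeff_heckeU (cf1_periodic f) (CuspFormClass.holo f) (cf1_bdd f) k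
    hq0 n, coeffHeckeU_apply]

theorem qCoeff_T1 {p : ℕ} (hp : p.Prime) (hpN : ¬ p ∣ N) (gp : Gamma0 N)
    (hgp : dN N gp.1 = (p : ZMod N)) (f : CuspForm (Gamma1 N) k) (n : ℕ) :
    qCoeff (T1 k hp hpN gp hgp f) n =
      qCoeff f (n * p) + if p ∣ n then (p : ℂ) ^ (k - 1) * qCoeff (dia k gp f) (n / p) else 0 := by
  set f' := dia k gp f with hf'
  have hp0 : p ≠ 0 := hp.ne_zero
  have hU : AnalyticAt ℂ (cuspFunction 1 (heckeU k p ⇑f)) 0 :=
    analyticAt_cuspFunction_zero one_pos (periodic_heckeU_comp_ofComplex (cf1_periodic f) k p)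
      (mdifferentiable_heckeU (CuspFormClass.holo f) k p) (isBoundedAtImInfty_heckeU (cf1_bdd f) k p)
  have hU' : AnalyticAt ℂ (cuspFunction 1 (heckeU k p ⇑f')) 0 :=
    analyticAt_cuspFunction_zero one_pos (periodic_heckeU_comp_ofComplex (cf1_periodic f') k p)
      (mdifferentiable_heckeU (CuspFormClass.holo f') k p)
      (isBoundedAtImInfty_heckeU (cf1_bdd f') k p)
  have hT' : AnalyticAt ℂ (cuspFunction 1 (heckeT k p ⇑f')) 0 :=
    analyticAt_cuspFunction_zero one_pos (periodic_heckeT_comp_ofComplex (cf1_periodic f') k p)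
      (mdifferentiable_heckeT (CuspFormClass.holo f') k p)
      (isBoundedAtImInfty_heckeT (cf1_bdd f') k p)
  have hdiag : (⇑f ∣[k] gp.1) ∣[k] heckeDiagMatrix p = heckeT k p ⇑f' - heckeU k p ⇑f' := by
    rw [heckeT_eq_heckeU_add, hf', coe_dia]; abel
  have hTU' : AnalyticAt ℂ (cuspFunction 1 (heckeT k p ⇑f' - heckeU k p ⇑f')) 0 := by
    rw [cuspFunction_sub hT'.continuousAt hU'.continuousAt]
    exact hT'.sub hU'
  have e : qExpansion 1 (heckeT1 k p gp.1 ⇑f) =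
      qExpansion 1 (heckeU k p ⇑f) + (qExpansion 1 (heckeT k p ⇑f') -
        qExpansion 1 (heckeU k p ⇑f')) := by
    rw [heckeT1, hdiag, qExpansion_add hU hTU', qExpansion_sub hT' hU']
  have h1 := UpperHalfPlane.qCoeff_heckeU (cf1_periodic f) (CuspFormClass.holo f) (cf1_bdd f) k
    hp0 n
  have h2 := UpperHalfPlane.qCoeff_heckeU (cf1_periodic f') (CuspFormClass.holo f') (cf1_bdd f') k
    hp0 n
  have h3 := UpperHalfPlane.qCoeff_heckeT (cf1_periodic f') (CuspFormClass.holo f') (cf1_bdd f') k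
    hp0 n
  unfold qCoeff at h1 h2 h3 ⊢
  rw [coe_T1, e, map_add, map_sub, h1, h2, h3, coeffHeckeU_apply, coeffHeckeU_apply,
    coeffHeckeT_apply]
  ring

theorem exists_gp {p : ℕ} (hpN : p.Coprime N) :
    ∃ gp : Gamma0 N, dN N gp.1 = (p : ZMod N) := by
  have hc : IsCoprime (p : ℤ) (N : ℤ) := Nat.isCoprime_iff_coprime.mpr hpN
  obtain ⟨a, b, hab⟩ := hc
  let g : SL(2, ℤ) := ⟨!![a, -b; (N : ℤ), (p : ℤ)], by
    rw [Matrix.det_fin_two_of]; linear_combination hab⟩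
  have hg : g ∈ Gamma0 N := by
    rw [Gamma0_mem]
    simp [g]
  refine ⟨⟨g, hg⟩, ?_⟩
  simp [dN, g]

end Fermat.Agent.DS.Int
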