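/-
S48-N2B-INT (helper8).  Bounded denominators on `Γ₁(N)`: for every cusp form `f` of weight
`1 + m ≥ 2` on `Γ₁(N)`, all `q`-coefficients of `f` lie in ONE finitely generated `ℤ`-submodule
of `ℂ`.  Input: helper97's generic Eichler–Shimura lattice (`DS/ES/Main`), the operators
`dia / U1 / T1` of `DS/Int/Forms1` and their `q`-expansion formulas.
-/
import Fermat.Agent.DS.Int.Forms1
import Fermat.Agent.DS.ES.HeckeAlgebra1Finite

set_option autoImplicit false

open UpperHalfPlane ModularForm Derivative Polynomial CongruenceSubgroup ModularFormClass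
open scoped MatrixGroups ModularForm Manifold Pointwise
open Matrix.SpecialLinearGroup (mapGL)
open Fermat.Agent.DS.ES

namespace Fermat.Agent.DS.Int

variable {N : ℕ} [NeZero N] {m : ℕ}

/-! ### The operators are integer-matrix-sum operators -/

theorem isIntSumOp_dia (g : Gamma0 N) : IsIntSumOp (Gamma1 N) m (dia ((1 : ℤ) + m) g) := by
  refine ⟨Unit, inferInstance, fun _ => mapGL ℝ g.1, fun _ => isIntGL_mapGL _, fun f => ?_⟩
  rw [coe_dia]
  simp [SL_slash_mapGL]

theorem isIntSumOp_U1 {q : ℕ} (hqN : q ∣ N) : IsIntSumOp (Gamma1 N) m (U1 ((1 : ℤ) + m) hqN) := by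
  have hq0 : q ≠ 0 := fun h => NeZero.ne N (by rw [h] at hqN; exact zero_dvd_iff.mp hqN)
  refine ⟨Fin q, inferInstance, fun j => heckeMatrix q j, fun j => isIntGL_heckeMatrix hq0 _,
    fun f => ?_⟩
  rw [coe_U1, heckeU_def, Finset.sum_range]

theorem isIntSumOp_T1 {p : ℕ} (hp : p.Prime) (hpN : ¬ p ∣ N) (gp : Gamma0 N)
    (hgp : dN N gp.1 = (p : ZMod N)) :
    IsIntSumOp (Gamma1 N) m (T1 ((1 : ℤ) + m) hp hpN gp hgp) := by
  refine ⟨Fin p ⊕ Unit, inferInstance,
    Sum.elim (fun j => heckeMatrix p j) (fun _ => mapGL ℝ gp.1 * heckeDiagMatrix p), ?_,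
    fun f => ?_⟩
  · rintro (j | _)
    · exact isIntGL_heckeMatrix hp.ne_zero _
    · exact (isIntGL_mapGL _).mul (isIntGL_heckeDiagMatrix hp.ne_zero)
  · rw [coe_T1, heckeT1, heckeU_def, Finset.sum_range, Fintype.sum_sum_type]
    simp [SL_slash_mapGL, SlashAction.slash_mul]

/-! ### The Hecke ring and its finiteness -/

/-- All the operators `⟨g⟩`, `U_q`, `T_p`. -/
def opSet (N : ℕ) [NeZero N] (m : ℕ) : Set (Module.End ℂ (CFG (Gamma1 N) m)) :=
  {T | (∃ g : Gamma0 N, T = dia ((1 : ℤ) + m) g) ∨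
    (∃ (q : ℕ) (hqN : q ∣ N), T = U1 ((1 : ℤ) + m) hqN) ∨
    (∃ (p : ℕ) (hp : p.Prime) (hpN : ¬ p ∣ N) (gp : Gamma0 N)
      (hgp : dN N gp.1 = (p : ZMod N)), T = T1 ((1 : ℤ) + m) hp hpN gp hgp)}

/-- The Hecke ring generated by all `⟨g⟩`, `U_q`, `T_p`. -/
def heckeRing1 (N : ℕ) [NeZero N] (m : ℕ) : Subalgebra ℤ (Module.End ℂ (CFG (Gamma1 N) m)) :=
  Algebra.adjoin ℤ (opSet N m)

theorem finite_heckeRing1 (hm : 1 ≤ m) : Module.Finite ℤ (heckeRing1 N m) := by
  refine finite_adjoin_intSumOp (Gamma1 N) m hm (opSet N m) ?_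
  rintro T (⟨g, rfl⟩ | ⟨q, hqN, rfl⟩ | ⟨p, hp, hpN, gp, hgp, rfl⟩)
  · exact isIntSumOp_dia g
  · exact isIntSumOp_U1 hqN
  · exact isIntSumOp_T1 hp hpN gp hgp

/-- The `n`-th `q`-coefficient as a linear functional. -/
noncomputable def qLin (N : ℕ) [NeZero N] (k : ℤ) (n : ℕ) : CuspForm (Gamma1 N) k →ₗ[ℂ] ℂ where
  toFun f := qCoeff f n
  map_add' f g := by
    unfold qCoeff
    rw [FunLike.coe_add, ModularForm.qExpansion_add one_pos (one_mem_strictPeriods_Gamma1 N),
      map_add]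
  map_smul' c f := by
    unfold qCoeff
    rw [FunLike.coe_smul, ModularForm.qExpansion_smul one_pos (one_mem_strictPeriods_Gamma1 N),
      PowerSeries.coeff_smul]
    rfl

@[simp] theorem qLin_apply (k : ℤ) (n : ℕ) (f : CuspForm (Gamma1 N) k) :
    qLin N k n f = qCoeff f n := rfl

theorem qCoeff_zero_cusp {k : ℤ} (f : CuspForm (Gamma1 N) k) : qCoeff f 0 = 0 :=
  CuspFormClass.qExpansion_coeff_zero f one_pos (one_mem_strictPeriods_Gamma1 N)

/-- Every coefficient functional is `a₁ ∘ t` for some `t` in the Hecke ring. -/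
theorem exists_word (n : ℕ) :
    ∃ t ∈ heckeRing1 N m, ∀ f : CFG (Gamma1 N) m, qCoeff f n = qCoeff (t f) 1 := by
  induction n using Nat.strong_induction_on with
  | _ n ih =>
    rcases Nat.lt_or_ge n 2 with hn | hn
    · interval_cases n
      · refine ⟨0, zero_mem _, fun f => ?_⟩
        rw [qCoeff_zero_cusp, LinearMap.zero_apply]
        exact ((qLin N ((1 : ℤ) + m) 1).map_zero).symm
      · exact ⟨1, one_mem _, fun f => rfl⟩
    · set p := n.minFac with hp
      have hpp : p.Prime := Nat.minFac_prime (by omega)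
      obtain ⟨n', hn'⟩ : p ∣ n := Nat.minFac_dvd n
      have hn'lt : n' < n := by
        have h2 : 2 ≤ p := hpp.two_le
        have hn'pos : 0 < n' := by
          rcases Nat.eq_zero_or_pos n' with h | h
          · rw [h, mul_zero] at hn'; omega
          · exact h
        nlinarith
      obtain ⟨t', ht', hw'⟩ := ih n' hn'lt
      have hnn : n = n' * p := by rw [hn', mul_comm]
      by_cases hpN : p ∣ N
      · refine ⟨t' * U1 ((1 : ℤ) + m) hpN, mul_mem ht'
          (Algebra.subset_adjoin (Or.inr (Or.inl ⟨p, hpN, rfl⟩))), fun f => ?_⟩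
        rw [Module.End.mul_apply, ← hw', qCoeff_U1, ← hnn]
      · obtain ⟨gp, hgp⟩ := exists_gp (N := N) ((Nat.Prime.coprime_iff_not_dvd hpp).mpr hpN)
        have hT1mem : T1 ((1 : ℤ) + m) hpp hpN gp hgp ∈ heckeRing1 N m :=
          Algebra.subset_adjoin (Or.inr (Or.inr ⟨p, hpp, hpN, gp, hgp, rfl⟩))
        have hdiamem : dia ((1 : ℤ) + m) gp ∈ heckeRing1 N m :=
          Algebra.subset_adjoin (Or.inl ⟨gp, rfl⟩)
        have hpow : ((p : ℂ)) ^ ((1 : ℤ) + m - 1) = ((p ^ m : ℕ) : ℂ) := by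
          rw [show (1 : ℤ) + m - 1 = (m : ℤ) by ring, zpow_natCast]
          push_cast; rfl
        by_cases hpn' : p ∣ n'
        · have hlt2 : n' / p < n := lt_of_le_of_lt (Nat.div_le_self _ _) hn'lt
          obtain ⟨t'', ht'', hw''⟩ := ih (n' / p) hlt2
          refine ⟨t' * T1 ((1 : ℤ) + m) hpp hpN gp hgp -
            ((p ^ m : ℕ) : ℤ) • (t'' * dia ((1 : ℤ) + m) gp),
            sub_mem (mul_mem ht' hT1mem)
              (Subalgebra.zsmul_mem _ (mul_mem ht'' hdiamem) _), fun f => ?_⟩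
          have h1 := qCoeff_T1 hpp hpN gp hgp f n'
          rw [if_pos hpn', ← hnn, hpow] at h1
          have h2 : qCoeff ((t' * T1 ((1 : ℤ) + m) hpp hpN gp hgp -
              ((p ^ m : ℕ) : ℤ) • (t'' * dia ((1 : ℤ) + m) gp)) f) 1 =
              qCoeff (t' (T1 ((1 : ℤ) + m) hpp hpN gp hgp f)) 1 -
                ((p ^ m : ℕ) : ℂ) * qCoeff (t'' (dia ((1 : ℤ) + m) gp f)) 1 := by
            rw [LinearMap.sub_apply, LinearMap.smul_apply, Module.End.mul_apply,
              Module.End.mul_apply, ← qLin_apply, map_sub, map_zsmul, qLin_apply, qLin_apply]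
            simp
          rw [h2, ← hw', ← hw'', h1]
          ring
        · refine ⟨t' * T1 ((1 : ℤ) + m) hpp hpN gp hgp, mul_mem ht' hT1mem, fun f => ?_⟩
          have h1 := qCoeff_T1 hpp hpN gp hgp f n'
          rw [if_neg hpn', add_zero, ← hnn] at h1
          rw [Module.End.mul_apply, ← hw', h1]

/-- `t ↦ a₁(t f)` as a `ℤ`-linear map on endomorphisms. -/
noncomputable def evalLin (f : CFG (Gamma1 N) m) :
    Module.End ℂ (CFG (Gamma1 N) m) →ₗ[ℤ] ℂ :=
  ({ toFun := fun t => qCoeff (t f) 1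
     map_zero' := by
      rw [LinearMap.zero_apply]
      exact (qLin N ((1 : ℤ) + m) 1).map_zero
     map_add' := fun t t' => by
      rw [LinearMap.add_apply]
      exact (qLin N ((1 : ℤ) + m) 1).map_add _ _ } : Module.End ℂ (CFG (Gamma1 N) m) →+ ℂ).toIntLinearMap

theorem evalLin_apply (f : CFG (Gamma1 N) m) (t : Module.End ℂ (CFG (Gamma1 N) m)) :
    evalLin f t = qCoeff (t f) 1 := rfl

/-- **Bounded denominators on `Γ₁(N)`, weight `≥ 2`**: all `q`-coefficients of a cusp form lie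
in one finitely generated `ℤ`-submodule of `ℂ`. -/
theorem exists_fg_qCoeff (hm : 1 ≤ m) (f : CFG (Gamma1 N) m) :
    ∃ L : Submodule ℤ ℂ, L.FG ∧ ∀ n, qCoeff f n ∈ L := by
  have hfin := finite_heckeRing1 (N := N) hm
  have hfg : (Subalgebra.toSubmodule (heckeRing1 N m)).FG := Module.Finite.iff_fg.mp hfin
  refine ⟨(Subalgebra.toSubmodule (heckeRing1 N m)).map (evalLin f), hfg.map _, fun n => ?_⟩
  obtain ⟨t, ht, hw⟩ := exists_word (N := N) (m := m) n
  exact ⟨t, ht, (hw f).symm⟩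

/-- Integer-weight spelling. -/
theorem exists_fg_qCoeff' (k : ℤ) (hk : 2 ≤ k) (f : CuspForm (Gamma1 N) k) :
    ∃ L : Submodule ℤ ℂ, L.FG ∧ ∀ n, qCoeff f n ∈ L := by
  obtain ⟨m, rfl⟩ : ∃ m : ℕ, k = (1 : ℤ) + m := ⟨(k - 1).toNat, by omega⟩
  exact exists_fg_qCoeff (by omega) f

end Fermat.Agent.DS.Int
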