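/-
S48-N2B-INT (helper8).  Weight one: all `q`-coefficients of a cusp form of weight `1` on `Γ₁(N)`
lie in one finitely generated `ℤ`-submodule of `ℂ` (multiply by `E₄`, a unit of `ℤ⟦q⟧` of level
one), hence GateInt: the Hecke eigenvalues `a_p` of the frozen-S48 data are algebraic integers
and there are finitely many conjugate eigensystems.
-/
import Fermat.Agent.DS.Int.CoeffFG1
import Fermat.Agent.DS.Int.IntegralOfFG
import Fermat.Agent.S16.LevelOneInt

set_option autoImplicit false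

open UpperHalfPlane ModularForm CongruenceSubgroup ModularFormClass EisensteinSeries
open scoped MatrixGroups ModularForm Manifold
open Matrix.SpecialLinearGroup (mapGL)
open Fermat.Agent.S16.L1h67

namespace Fermat.Agent.DS.Int

variable {N : ℕ} [NeZero N]

theorem G1_le_SL (N : ℕ) :
    ((Gamma1 N : Subgroup SL(2, ℤ)) : Subgroup (GL (Fin 2) ℝ)) ≤ 𝒮ℒ := by
  rintro _ ⟨γ, -, rfl⟩
  exact ⟨γ, rfl⟩

/-- `E₄` as a modular form on `Γ₁(N)`. -/
noncomputable def E4on (N : ℕ) : ModularForm (Gamma1 N) 4 where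
  toFun := E₄
  slash_action_eq' γ hγ := E₄.slash_action_eq' γ (G1_le_SL N hγ)
  holo' := E₄.holo'
  bdd_at_cusps' hc := E₄.bdd_at_cusps' (hc.mono (G1_le_SL N))

theorem coe_E4on (N : ℕ) : (⇑(E4on N) : ℍ → ℂ) = ⇑E₄ := rfl

/-- **Bounded denominators in weight one** on `Γ₁(N)`. -/
theorem exists_fg_qCoeff_weightOne (f : CuspForm (Gamma1 N) 1) :
    ∃ L : Submodule ℤ ℂ, L.FG ∧ ∀ n, qCoeff f n ∈ L := by
  set g : CuspForm (Gamma1 N) (1 + 4) := f.mulModularForm (E4on N) with hg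
  obtain ⟨L, hLfg, hL⟩ := exists_fg_qCoeff' (N := N) (1 + 4) (by norm_num) g
  refine ⟨L, hLfg, fun n => ?_⟩
  have hmul : qExpansion 1 g = qExpansion 1 f * e4Z.map (Int.castRingHom ℂ) := by
    have h1 : (⇑g : ℍ → ℂ) = ⇑f * ⇑(E4on N) := rfl
    rw [h1, ModularForm.qExpansion_mul_coe one_pos (one_mem_strictPeriods_Gamma1 N) f (E4on N),
      coe_E4on, qExpansion_E4]
  obtain ⟨u, hu⟩ : IsUnit e4Z := by
    rw [PowerSeries.isUnit_iff_constantCoeff, constantCoeff_e4Z]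
    exact isUnit_one
  set v : PowerSeries ℤ := ((u⁻¹ : (PowerSeries ℤ)ˣ) : PowerSeries ℤ) with hv
  have huv : e4Z * v = 1 := by rw [← hu, hv, Units.mul_inv]
  have hf : qExpansion 1 f = qExpansion 1 g * v.map (Int.castRingHom ℂ) := by
    rw [hmul, mul_assoc, ← map_mul, huv, map_one, mul_one]
  unfold qCoeff
  rw [hf, PowerSeries.coeff_mul]
  refine Submodule.sum_mem _ fun ij _ => ?_
  rw [PowerSeries.coeff_map, eq_intCast, mul_comm, ← zsmul_eq_mul]
  exact Submodule.smul_mem _ _ (hL ij.1)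

/-- **GateInt (a)**: the Hecke eigenvalues of the frozen-S48 data are algebraic integers. -/
theorem isIntegral_qCoeff (ε : DirichletCharacter ℂ N) (f : CuspForm (Gamma1 N) 1)
    (hf₁ : qCoeff f 1 = 1)
    (hT : ∀ p : ℕ, p.Prime → ¬ p ∣ N → ∀ n : ℕ,
      qCoeff f (p * n) + ε (p : ZMod N) * (if p ∣ n then qCoeff f (n / p) else 0) =
        qCoeff f p * qCoeff f n) :
    ∀ p : ℕ, p.Prime → ¬ p ∣ N → IsIntegral ℤ (qCoeff f p) :=
  isIntegral_qCoeff_of_fg ε f hf₁ hT (exists_fg_qCoeff_weightOne f)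

/-- **GateInt (b)**: finitely many conjugate eigensystems. -/
theorem finite_eigensystems (ε : DirichletCharacter ℂ N) (f : CuspForm (Gamma1 N) 1)
    (hf₁ : qCoeff f 1 = 1)
    (hT : ∀ p : ℕ, p.Prime → ¬ p ∣ N → ∀ n : ℕ,
      qCoeff f (p * n) + ε (p : ZMod N) * (if p ∣ n then qCoeff f (n / p) else 0) =
        qCoeff f p * qCoeff f n) :
    {a : ℕ → ℂ | ∃ σ : ℂ →+* ℂ, (∀ p : ℕ, p.Prime → ¬ p ∣ N → a p = σ (qCoeff f p)) ∧
      ∀ p : ℕ, ¬ (p.Prime ∧ ¬ p ∣ N) → a p = 0}.Finite :=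
  finite_eigensystems_of_fg ε f hf₁ hT (exists_fg_qCoeff_weightOne f)

/-- The ring generated by the eigenvalues is a finitely generated `ℤ`-module. -/
theorem adjoin_qCoeff_fg' (ε : DirichletCharacter ℂ N) (f : CuspForm (Gamma1 N) 1)
    (hf₁ : qCoeff f 1 = 1)
    (hT : ∀ p : ℕ, p.Prime → ¬ p ∣ N → ∀ n : ℕ,
      qCoeff f (p * n) + ε (p : ZMod N) * (if p ∣ n then qCoeff f (n / p) else 0) =
        qCoeff f p * qCoeff f n) :
    (Subalgebra.toSubmodule (Algebra.adjoin ℤ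
      ((fun n => qCoeff f n) '' {p : ℕ | p.Prime ∧ ¬ p ∣ N}))).FG :=
  adjoin_qCoeff_fg ε f hf₁ hT (exists_fg_qCoeff_weightOne f)

end Fermat.Agent.DS.Int
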