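/-
S48-N2B-INT (helper8).  GateInt in the shape consumed by `DS/N6/Final.s48_of_gates`:
a subring `R ⊂ ℂ`, finite over `ℤ`, containing all the `a_p`, `p ∤ N` (and, optionally, the
values of `ε`).
-/
import Fermat.Agent.DS.Int.WeightOne

set_option autoImplicit false

open UpperHalfPlane ModularForm CongruenceSubgroup ModularFormClass
open scoped MatrixGroups ModularForm Manifold

namespace Fermat.Agent.DS.Int

variable {N : ℕ} [NeZero N]

/-- A subalgebra of `ℂ` over `ℤ` which is finitely generated as a module gives a subring which is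
a finite `ℤ`-module. -/
theorem finite_toSubring_of_fg (S : Subalgebra ℤ ℂ) (hS : (Subalgebra.toSubmodule S).FG) :
    Module.Finite ℤ S.toSubring := by
  have h1 : Module.Finite ℤ (Subalgebra.toSubmodule S) := Module.Finite.iff_fg.mpr hS
  let φ : (Subalgebra.toSubmodule S) →ₗ[ℤ] S.toSubring :=
    ({ toFun := fun x => ⟨x.1, x.2⟩
       map_zero' := rfl
       map_add' := fun _ _ => rfl } : (Subalgebra.toSubmodule S) →+ S.toSubring).toIntLinearMap
  exact Module.Finite.of_surjective φ (fun y => ⟨⟨y.1, y.2⟩, rfl⟩)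

/-- **GateInt** in the `s48_of_gates` shape. -/
theorem exists_subring_finite (ε : DirichletCharacter ℂ N) (f : CuspForm (Gamma1 N) 1)
    (hf₁ : qCoeff f 1 = 1)
    (hT : ∀ p : ℕ, p.Prime → ¬ p ∣ N → ∀ n : ℕ,
      qCoeff f (p * n) + ε (p : ZMod N) * (if p ∣ n then qCoeff f (n / p) else 0) =
        qCoeff f p * qCoeff f n) :
    ∃ (R : Subring ℂ) (_ : Module.Finite ℤ R), ∀ p : ℕ, p.Prime → ¬ p ∣ N → qCoeff f p ∈ R := by
  refine ⟨(Algebra.adjoin ℤ ((fun n => qCoeff f n) '' {p : ℕ | p.Prime ∧ ¬ p ∣ N})).toSubring,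
    finite_toSubring_of_fg _ (adjoin_qCoeff_fg' ε f hf₁ hT), fun p hp hpN => ?_⟩
  exact Algebra.subset_adjoin ⟨p, ⟨hp, hpN⟩, rfl⟩

end Fermat.Agent.DS.Int
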