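/-
S48 plug (helper8).  `DS/N6/Final.s48_of_gates` with GateInt (this directory) and GateRankin2
(helper10, `DS/N1/CoeffBound`) DISCHARGED: the frozen S48 statement from the two remaining gates
BoundedModL and GateCheb only.
-/
import Fermat.Agent.DS.Int.GateInt
import Fermat.Agent.DS.N6.Final
import Fermat.Agent.DS.N1.CoeffBound

set_option autoImplicit false

open CongruenceSubgroup NumberField
open scoped MatrixGroups
local notation "Γℚ" => (AlgebraicClosure ℚ ≃ₐ[ℚ] AlgebraicClosure ℚ)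

namespace Fermat.Agent.DS.Int

open ModularFormClass in
/-- **GateRankin2** in the `s48_of_gates` shape from helper10's `weightOne_sum_primes_bounded_le`. -/
theorem rankin2_gate (N : ℕ) [NeZero N] (ε : DirichletCharacter ℂ N) (f : CuspForm (Gamma1 N) 1)
    (hf₁ : qCoeff f 1 = 1)
    (hT : ∀ p : ℕ, p.Prime → ¬ p ∣ N → ∀ n : ℕ,
      qCoeff f (p * n) + ε (p : ZMod N) * (if p ∣ n then qCoeff f (n / p) else 0) =
        qCoeff f p * qCoeff f n)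
    (hbd : ∀ p : ℕ, p.Prime → ¬ p ∣ N → ‖qCoeff f p‖ ≤ 2) :
    ∃ C : ℝ, ∀ s : ℝ, 1 < s → s < 2 → ∀ T : Finset ℕ,
      (∀ p ∈ T, p.Prime ∧ p ∉ N.primeFactors) →
      ∑ p ∈ T, ‖qCoeff f p‖ ^ 2 * (p : ℝ) ^ (-s) ≤ Real.log (1 / (s - 1)) + C := by
  obtain ⟨C, hC1, hC⟩ := Fermat.Agent.DS.N1.weightOne_sum_primes_bounded_le N ε f hf₁ hT
  refine ⟨Real.log C + Real.log 2 + 2 * (4 : ℝ) ^ 2, fun s hs1 hs2 T hTp => ?_⟩
  have hN : N ≠ 0 := NeZero.ne N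
  have hnd : ∀ p ∈ T, p.Prime ∧ ¬ p ∣ N := fun p hp =>
    ⟨(hTp p hp).1, fun hd => (hTp p hp).2 (Nat.mem_primeFactors.mpr ⟨(hTp p hp).1, hd, hN⟩)⟩
  have h := hC s hs1 4 T (fun p hp => ⟨(hnd p hp).1, (hnd p hp).2, by
    have := hbd p (hnd p hp).1 (hnd p hp).2
    nlinarith [norm_nonneg (qCoeff f p)]⟩)
  have heq : ∑ p ∈ T, ‖qCoeff f p‖ ^ 2 * (p : ℝ) ^ (-s) =
      ∑ p ∈ T, ‖qCoeff f p‖ ^ 2 / (p : ℝ) ^ s :=
    Finset.sum_congr rfl fun p _ => by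
      rw [Real.rpow_neg (Nat.cast_nonneg p), div_eq_mul_inv]
  rw [heq]
  refine h.trans ?_
  have hs0 : 0 < s - 1 := by linarith
  have hCpos : 0 < C := by linarith
  have h1 : 1 / (s - 1) + 1 = s * (1 / (s - 1)) := by
    field_simp
    ring
  rw [h1, Real.log_mul hCpos.ne' (by positivity), Real.log_mul (by linarith) (by positivity)]
  have h2 : Real.log s ≤ Real.log 2 := Real.log_le_log (by linarith) hs2.le
  linarith

open ModularFormClass Fermat.Agent.DS.N6 Fermat.Agent.DS.N7 in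
/-- **S48 from BoundedModL and GateCheb only** (GateInt and GateRankin2 discharged). -/
theorem s48_of_two_gates (N : ℕ) [NeZero N] (ε : DirichletCharacter ℂ N)
    (f : CuspForm (Gamma1 N) 1) (hf₁ : qCoeff f 1 = 1)
    (hT : ∀ p : ℕ, p.Prime → ¬ p ∣ N → ∀ n : ℕ,
      qCoeff f (p * n) + ε (p : ZMod N) * (if p ∣ n then qCoeff f (n / p) else 0) =
        qCoeff f p * qCoeff f n)
    (A : ℕ)
    (hMod : ∀ (E : IntermediateField ℚ ℂ) [NumberField E] (a' e' : ℕ → 𝓞 E),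
      (∀ p : ℕ, p.Prime → ¬ p ∣ N → ((a' p : E) : ℂ) = qCoeff f p) →
      (∀ p : ℕ, p.Prime → ¬ p ∣ N → ((e' p : E) : ℂ) = ε (p : ZMod N)) →
      ∃ ℓ₀ : ℕ, ∀ ℓ : ℕ, ℓ.Prime → ℓ₀ ≤ ℓ → ¬ ℓ ∣ N → ∀ φ : 𝓞 E →+* ZMod ℓ,
        ∃ ρbar : Γℚ →* GL (Fin 2) (ZMod ℓ), GaloisFactorsThroughFiniteLevel ρbar ∧
          Nat.card ρbar.range ≤ A ∧
          ∀ p : ℕ, p.Prime → ¬ p ∣ N → p ≠ ℓ →
            ∀ V : ValuationSubring (AlgebraicClosure ℚ), V.LiesOverPrime p →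
              (∀ σ ∈ V.inertiaSubgroupIn ℚ, ρbar σ = 1) ∧
              ∀ τ : Γℚ, V.IsFrobeniusAt τ p →
                ((ρbar τ : GL (Fin 2) (ZMod ℓ)) : Matrix (Fin 2) (Fin 2) (ZMod ℓ)).trace =
                  φ (a' p) ∧
                ((ρbar τ : GL (Fin 2) (ZMod ℓ)) : Matrix (Fin 2) (Fin 2) (ZMod ℓ)).det =
                  φ (e' p))
    (hCheb : ∀ (G : Type) [Group G] [Fintype G] (π : Γℚ →* G), Function.Surjective π →
      GaloisFactorsThroughFiniteLevel π → ∀ w : G → ℝ, (∀ g, 0 ≤ w g) →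
      (∀ g h : G, w (h * g * h⁻¹) = w g) → WeightedChebLower π N.primeFactors w) :
    ∃ ρ : Γℚ →* GL (Fin 2) ℂ, GaloisFactorsThroughFiniteLevel ρ ∧
      (Deformation.matrixRepresentation ρ).IsIrreducible ∧
      ∀ p : ℕ, p.Prime → ¬ p ∣ N →
        ∀ A : ValuationSubring (AlgebraicClosure ℚ), A.LiesOverPrime p →
          (∀ σ ∈ A.inertiaSubgroupIn ℚ, ρ σ = 1) ∧
          ∀ σ : Γℚ, A.IsFrobeniusAt σ p →
            ((ρ σ : GL (Fin 2) ℂ) : Matrix (Fin 2) (Fin 2) ℂ).trace = qCoeff f p ∧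
            ((ρ σ : GL (Fin 2) ℂ) : Matrix (Fin 2) (Fin 2) ℂ).det = ε (p : ZMod N) := by
  obtain ⟨R, hRfin, hR⟩ := exists_subring_finite ε f hf₁ hT
  exact s48_of_gates N ε f R hR A hMod (rankin2_gate N ε f hf₁ hT) hCheb

end Fermat.Agent.DS.Int
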